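/-
S41 / C4 [CSP], number theory of helper11's STEP (A3) (helper87).  Mathlib only.

For `M ≥ 1`, `q` prime not dividing `M`:
* `exists_primary_decomp` : `X = L * L'` with all prime factors of `L` dividing `M`, `L'` prime to `M`;
* `exists_prime_modEq_and_modEq` : Dirichlet + CRT, a prime in two coprime progressions at once;
* `coprime_half_pred` : `c₀ ≡ -1 (mod K)`, `K = 4M` (if `2 ∣ M`) or `M`, gives `gcd((c₀-1)/2, M) = 1`;
* `exists_unit_sq_eq` : for such a prime `c₀ ≠ q` there are `n s` with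
  `q ^ n ≡ 1 (mod M)`, `(q ^ n) ^ 2 = 1 + L * c₀ * s`, `gcd(s, M) = 1`, where `L` is the `M`-primary
  part of `(q ^ φ(M)) ^ 2 - 1` (fixed before `c₀` is chosen).
-/
import Mathlib

set_option autoImplicit false

namespace Fermat.Agent.S41.CSPNum87

open Finset

/-- `M`-primary decomposition of a positive integer. -/
theorem exists_primary_decomp (M : ℕ) : ∀ X : ℕ, 0 < X →
    ∃ L L' : ℕ, X = L * L' ∧ (∀ ℓ : ℕ, ℓ.Prime → ℓ ∣ L → ℓ ∣ M) ∧ Nat.Coprime L' M := by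
  intro X
  induction X using Nat.strong_induction_on with
  | _ X ih =>
    intro hX
    by_cases hc : Nat.Coprime X M
    · exact ⟨1, X, (one_mul X).symm, fun ℓ hℓ h1 => absurd (Nat.dvd_one.mp h1) hℓ.ne_one, hc⟩
    · obtain ⟨ℓ, hℓ, hℓX, hℓM⟩ := Nat.Prime.not_coprime_iff_dvd.mp hc
      obtain ⟨X', rfl⟩ := hℓX
      have hX' : 0 < X' := Nat.pos_of_ne_zero (by rintro rfl; simp at hX)
      have hlt : X' < ℓ * X' := by
        have := hℓ.two_le
        nlinarith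
      obtain ⟨L, L', hLL', hL, hL'⟩ := ih X' hlt hX'
      refine ⟨ℓ * L, L', by rw [hLL', mul_assoc], ?_, hL'⟩
      intro r hr hrd
      rcases (Nat.Prime.dvd_mul hr).mp hrd with h | h
      · rw [(Nat.prime_dvd_prime_iff_eq hr hℓ).mp h]; exact hℓM
      · exact hL r hr h

/-- Dirichlet + CRT: a large prime in two coprime progressions simultaneously. -/
theorem exists_prime_modEq_and_modEq {a K κ ρ : ℕ} (ha : a ≠ 0) (hK : K ≠ 0)
    (haK : Nat.Coprime a K) (hκ : Nat.Coprime κ a) (hρ : Nat.Coprime ρ K) (B : ℕ) :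
    ∃ c₀ > B, c₀.Prime ∧ c₀ ≡ κ [MOD a] ∧ c₀ ≡ ρ [MOD K] := by
  obtain ⟨r, hr1, hr2⟩ := Nat.chineseRemainder haK κ ρ
  have hra : Nat.Coprime r a := by
    have := hr1.gcd_eq
    rw [Nat.Coprime, this]; exact hκ
  have hrK : Nat.Coprime r K := by
    have := hr2.gcd_eq
    rw [Nat.Coprime, this]; exact hρ
  have hr : Nat.Coprime r (a * K) := Nat.Coprime.mul_right hra hrK
  obtain ⟨c₀, hB, hp, hc⟩ := Nat.forall_exists_prime_gt_and_modEq B (mul_ne_zero ha hK) hr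
  exact ⟨c₀, hB, hp, (hc.of_mul_right K).trans hr1, (hc.of_mul_left a).trans hr2⟩

/-- The modulus carrying the side conditions on the auxiliary prime. -/
def sideMod (M : ℕ) : ℕ := if 2 ∣ M then 4 * M else M

theorem sideMod_ne_zero {M : ℕ} (hM : M ≠ 0) : sideMod M ≠ 0 := by
  unfold sideMod; split_ifs <;> omega

theorem dvd_sideMod (M : ℕ) : M ∣ sideMod M := by
  unfold sideMod; split_ifs
  · exact Dvd.intro_left 4 rfl
  · exact dvd_rfl

/-- `c₀ ≡ -1 (mod sideMod M)`, `c₀` odd, forces `gcd((c₀ - 1)/2, M) = 1`. -/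
theorem coprime_half_pred {M c₀ : ℕ} (hodd : ¬ 2 ∣ c₀) (hc : sideMod M ∣ c₀ + 1) :
    Nat.Coprime ((c₀ - 1) / 2) M := by
  refine Nat.coprime_of_dvd fun ℓ hℓ h1 h2 => ?_
  have hMc : M ∣ c₀ + 1 := (dvd_sideMod M).trans hc
  have hℓc : ℓ ∣ c₀ + 1 := h2.trans hMc
  by_cases h2ℓ : ℓ = 2
  · subst h2ℓ
    have h4 : 4 ∣ c₀ + 1 := by
      have : sideMod M = 4 * M := by unfold sideMod; rw [if_pos h2]
      rw [this] at hc
      exact (Dvd.intro _ rfl).trans hc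
    omega
  · obtain ⟨k, hk⟩ := h1
    have hc1 : c₀ + 1 = ℓ * (2 * k) + 2 := by
      have : (c₀ - 1) / 2 * 2 = c₀ - 1 := Nat.div_mul_cancel (by omega)
      rw [hk] at this
      have h3 : ℓ * (2 * k) = ℓ * k * 2 := by ring
      omega
    have : ℓ ∣ 2 := by
      have h4 : ℓ ∣ ℓ * (2 * k) + 2 := hc1 ▸ hℓc
      exact (Nat.dvd_add_right (Dvd.intro _ rfl)).mp h4
    exact h2ℓ ((Nat.prime_dvd_prime_iff_eq hℓ Nat.prime_two).mp this)

/-- **Key number theory of (A3).**  `L * L' = (q ^ φ(M))² - 1` is the `M`-primary decomposition; for an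
odd prime `c₀ ≠ q` prime to `M` with `gcd((c₀-1)/2, M) = 1` there is a power `η = q ^ n ≡ 1 (mod M)`
with `η² = 1 + L * c₀ * s`, `gcd(s, M) = 1`. -/
theorem exists_unit_sq_eq {M q c₀ L L' : ℕ} (hqM : Nat.Coprime q M)
    (hc₀ : c₀.Prime) (hc₀2 : c₀ ≠ 2) (hc₀q : Nat.Coprime c₀ q) (hc₀M : Nat.Coprime c₀ M)
    (hhalf : Nat.Coprime ((c₀ - 1) / 2) M)
    (hLL' : (q ^ M.totient) ^ 2 = L * L' + 1)
    (hL : ∀ ℓ : ℕ, ℓ.Prime → ℓ ∣ L → ℓ ∣ M) (hL' : Nat.Coprime L' M) :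
    ∃ n s : ℕ, q ^ n ≡ 1 [MOD M] ∧ (q ^ n) ^ 2 = 1 + L * c₀ * s ∧ Nat.Coprime s M := by
  have : Fact c₀.Prime := ⟨hc₀⟩
  set e0 : ℕ := q ^ M.totient with he0
  have he0M : e0 ≡ 1 [MOD M] := Nat.ModEq.pow_totient hqM
  -- `q` is a unit modulo `c₀`
  have hq0 : (q : ZMod c₀) ≠ 0 := by
    intro h
    have hd : c₀ ∣ q := (ZMod.natCast_eq_zero_iff q c₀).mp h
    have : c₀ ∣ 1 := by
      have := Nat.dvd_gcd dvd_rfl hd
      rwa [hc₀q] at this
    exact hc₀.one_lt.ne' (Nat.dvd_one.mp this)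
  have he00 : (e0 : ZMod c₀) ≠ 0 := by
    rw [he0, Nat.cast_pow]; exact pow_ne_zero _ hq0
  -- the order `j`
  set x : ZMod c₀ := (e0 : ZMod c₀) ^ 2 with hx
  have hodd : (c₀ - 1) / 2 * 2 = c₀ - 1 := by
    rcases hc₀.eq_two_or_odd with h | h
    · exact absurd h hc₀2
    · omega
  have hxpow : x ^ ((c₀ - 1) / 2) = 1 := by
    rw [hx, ← pow_mul, mul_comm, hodd]
    exact ZMod.pow_card_sub_one_eq_one he00
  set j : ℕ := orderOf x with hj
  have hjdvd : j ∣ (c₀ - 1) / 2 := orderOf_dvd_of_pow_eq_one hxpow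
  have hjM : Nat.Coprime j M := Nat.Coprime.coprime_dvd_left hjdvd hhalf
  have hxj : x ^ j = 1 := pow_orderOf_eq_one x
  -- geometric sum
  set S : ℕ := ∑ i ∈ range j, (L * L' + 1) ^ i with hS
  have hgeom : S * (L * L') + 1 = (L * L' + 1) ^ j := geom_sum_mul_add (L * L') j
  -- `c₀ ∣ S * (L * L')`
  have hcdvd : c₀ ∣ S * (L * L') := by
    have h1 : ((S * (L * L') + 1 : ℕ) : ZMod c₀) = 1 := by
      rw [hgeom, ← hLL', Nat.cast_pow, Nat.cast_pow]
      exact hxj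
    have h2 : ((S * (L * L') : ℕ) : ZMod c₀) = 0 := by
      have := h1
      rw [Nat.cast_add, Nat.cast_one] at this
      exact add_eq_right.mp this
    exact (ZMod.natCast_eq_zero_iff _ _).mp h2
  -- `S ≡ j (mod M)`
  have hxM : L * L' + 1 ≡ 1 [MOD M] := by
    rw [← hLL']
    simpa using he0M.pow 2
  have hSM : S ≡ j [MOD M] := by
    rw [hS]
    have : ∀ i ∈ range j, (L * L' + 1) ^ i ≡ 1 [MOD M] := fun i _ => by
      simpa using hxM.pow i
    have h3 : (∑ i ∈ range j, (L * L' + 1) ^ i) ≡ ∑ _i ∈ range j, 1 [MOD M] := by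
      unfold Nat.ModEq
      rw [Finset.sum_nat_mod, Finset.sum_nat_mod (range j) M (fun _ => 1)]
      congr 1
      exact Finset.sum_congr rfl fun i hi => this i hi
    simpa using h3
  have hScop : Nat.Coprime S M := by
    have := hSM.gcd_eq
    rw [Nat.Coprime, this]; exact hjM
  -- `c₀` is prime to `L`
  have hcL : Nat.Coprime c₀ L := by
    rw [Nat.Prime.coprime_iff_not_dvd hc₀]
    intro h
    have h1 : c₀ ∣ M := hL c₀ hc₀ h
    have : c₀ ∣ 1 := by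
      have := Nat.dvd_gcd dvd_rfl h1
      rwa [hc₀M] at this
    exact hc₀.one_lt.ne' (Nat.dvd_one.mp this)
  have hcdvd' : c₀ ∣ S * L' := by
    have : c₀ ∣ L * (S * L') := by
      have h : S * (L * L') = L * (S * L') := by ring
      rwa [h] at hcdvd
    exact hcL.dvd_of_dvd_mul_left this
  obtain ⟨s, hs⟩ := hcdvd'
  refine ⟨M.totient * j, s, ?_, ?_, ?_⟩
  · rw [pow_mul]
    simpa using he0M.pow j
  · rw [pow_mul, ← he0, ← pow_mul, mul_comm j 2, pow_mul, hLL', ← hgeom]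
    have : S * (L * L') = L * (S * L') := by ring
    rw [this, hs]; ring
  · have : Nat.Coprime (S * L') M := Nat.Coprime.mul_left hScop hL'
    exact Nat.Coprime.coprime_dvd_left (Dvd.intro_left c₀ hs.symm) this

/-- **Packaged (A3).**  There is `L` (depending only on `M`, `q`), `M ∣ L`, with prime factors among
those of `M`, such that every coprime progression `κ mod a` (with `a` prime to `sideMod M`) contains
arbitrarily large primes `c₀` (prime to `M q`) for which a unit `η = q ^ n ≡ 1 (mod M)` satisfies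
`η² = 1 + L * c₀ * s` with `s` prime to `M`. -/
theorem exists_aux_prime {M q : ℕ} (hM : M ≠ 0) (hq : q.Prime) (hqM : Nat.Coprime q M) :
    ∃ L : ℕ, M ∣ L ∧ (∀ ℓ : ℕ, ℓ.Prime → ℓ ∣ L → ℓ ∣ M) ∧
      ∀ a κ B : ℕ, a ≠ 0 → Nat.Coprime a (sideMod M) → Nat.Coprime κ a →
        ∃ c₀ > B, c₀.Prime ∧ c₀ ≡ κ [MOD a] ∧ Nat.Coprime c₀ M ∧ Nat.Coprime c₀ q ∧
          ∃ n s : ℕ, q ^ n ≡ 1 [MOD M] ∧ (q ^ n) ^ 2 = 1 + L * c₀ * s ∧ Nat.Coprime s M := by
  have he0M : q ^ M.totient ≡ 1 [MOD M] := Nat.ModEq.pow_totient hqM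
  have hφ : 0 < M.totient := Nat.totient_pos.mpr (Nat.pos_of_ne_zero hM)
  have he0 : 2 ≤ q ^ M.totient := by
    calc 2 ≤ q := hq.two_le
      _ = q ^ 1 := (pow_one q).symm
      _ ≤ q ^ M.totient := Nat.pow_le_pow_right hq.pos hφ
  have hpos : 0 < (q ^ M.totient) ^ 2 - 1 := by
    have : 4 ≤ (q ^ M.totient) ^ 2 := by nlinarith
    omega
  obtain ⟨L, L', hLL', hL, hL'⟩ := exists_primary_decomp M _ hpos
  have hLL'' : (q ^ M.totient) ^ 2 = L * L' + 1 := by omega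
  have hML : M ∣ L := by
    have h1 : M ∣ (q ^ M.totient) ^ 2 - 1 := by
      have h2 : (q ^ M.totient) ^ 2 ≡ 1 [MOD M] := by simpa using he0M.pow 2
      exact (Nat.modEq_iff_dvd' (by nlinarith)).mp h2.symm
    rw [hLL'] at h1
    exact (Nat.Coprime.symm hL').dvd_of_dvd_mul_right h1
  refine ⟨L, hML, hL, ?_⟩
  intro a κ B ha haK hκ
  have hK : sideMod M ≠ 0 := sideMod_ne_zero hM
  have hρ : Nat.Coprime (sideMod M - 1) (sideMod M) := by
    have h1 : 1 ≤ sideMod M := Nat.pos_of_ne_zero hK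
    have : Nat.Coprime (sideMod M - 1) (sideMod M - 1 + 1) := by simp
    rwa [Nat.sub_add_cancel h1] at this
  obtain ⟨c₀, hB, hp, hc1, hc2⟩ :=
    exists_prime_modEq_and_modEq ha hK haK hκ hρ (B + 2 + q + M)
  have hc₀2 : c₀ ≠ 2 := by omega
  have hsd : sideMod M ∣ c₀ + 1 := by
    have h1 : 1 ≤ sideMod M := Nat.pos_of_ne_zero hK
    have h3 : c₀ + 1 ≡ sideMod M - 1 + 1 [MOD sideMod M] := hc2.add_right 1
    rw [Nat.sub_add_cancel h1] at h3
    exact (Nat.modEq_zero_iff_dvd).mp (h3.trans (Nat.modEq_zero_iff_dvd.mpr dvd_rfl))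
  have hodd : ¬ 2 ∣ c₀ := by
    rcases hp.eq_two_or_odd with h | h
    · exact absurd h hc₀2
    · omega
  have hc₀M : Nat.Coprime c₀ M := by
    rw [Nat.Prime.coprime_iff_not_dvd hp]
    intro h
    have := Nat.le_of_dvd (Nat.pos_of_ne_zero hM) h
    omega
  have hc₀q : Nat.Coprime c₀ q := by
    rw [Nat.Prime.coprime_iff_not_dvd hp]
    intro h
    have := Nat.le_of_dvd hq.pos h
    omega
  refine ⟨c₀, by omega, hp, hc1, hc₀M, hc₀q, ?_⟩
  exact exists_unit_sq_eq hqM hp hc₀2 hc₀q hc₀M (coprime_half_pred hodd hsd) hLL'' hL hL'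

end Fermat.Agent.S41.CSPNum87
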