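/-
S41 / C4 [CSP], leaf F2 of helper11's proof: the number-theoretic input `CSP11.NTInput q M` of
STEP A (helper87).  Built on the pure-`ℕ` core `CSPNum87.exists_aux_prime` (Dirichlet + CRT +
Fermat's little theorem) of `CSPNum87/A3.lean`.

* `exists_nat_mul_cong` : every `t ∈ ℤ[1/q]` is `≡ i * s₂ * a (mod M ℤ[1/q])` for some `i : ℕ`
  (`s₂ : ℕ` prime to `M`, `a ≡ 1 mod M`);
* `ntInput`             : `q` prime, `0 < M`, `gcd(M, q) = 1`  ⟹  `CSP11.NTInput q M`.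
-/
import Mathlib
import Fermat.Agent.S41.CSP11.StepA
import Fermat.Agent.S41.CSPNum87.A3

set_option autoImplicit false

namespace Fermat.Agent.S41.CSPNum87

open Fermat.Agent.S41.Amalgam95 Fermat.Agent.S41.Ihara95

variable {q : ℕ}

/-! ### small API for `IsAway` / `IsCongZero` -/

lemma away_natCast (n : ℕ) : IsAway q (n : ℚ) := by
  simpa using IsAway.of_int (q := q) (n : ℤ)

lemma away_qpow (k : ℕ) : IsAway q ((q : ℚ) ^ k) := by
  simpa using (IsAway.of_int (q := q) ((q : ℤ) ^ k))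

lemma away_inv_qpow (hq : q ≠ 0) (k : ℕ) : IsAway q (((q : ℚ) ^ k)⁻¹) := by
  have h : ((q : ℚ) ^ k) ≠ 0 := pow_ne_zero _ (by exact_mod_cast hq)
  exact ⟨k, 1, by rw [inv_mul_cancel₀ h]; simp⟩

lemma away_mul_pow_int {x : ℚ} (hx : IsAway q x) :
    ∃ n : ℕ, ∀ k : ℕ, n ≤ k → ∃ m : ℤ, x * (q : ℚ) ^ k = m := by
  obtain ⟨n, m, h⟩ := hx
  refine ⟨n, fun k hk => ⟨m * (q : ℤ) ^ (k - n), ?_⟩⟩
  obtain ⟨j, rfl⟩ := Nat.exists_eq_add_of_le hk
  push_cast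
  rw [← h, pow_add, Nat.add_sub_cancel_left]
  ring

variable {M : ℕ}

lemma congZero_add {x y : ℚ} (hx : IsCongZero q M x) (hy : IsCongZero q M y) :
    IsCongZero q M (x + y) := by
  obtain ⟨r, hr, rfl⟩ := hx
  obtain ⟨r', hr', rfl⟩ := hy
  exact ⟨r + r', hr.add hr', by ring⟩

lemma congZero_neg {x : ℚ} (hx : IsCongZero q M x) : IsCongZero q M (-x) := by
  obtain ⟨r, hr, rfl⟩ := hx
  exact ⟨-r, hr.neg, by ring⟩

lemma congZero_sub {x y : ℚ} (hx : IsCongZero q M x) (hy : IsCongZero q M y) :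
    IsCongZero q M (x - y) := by
  rw [sub_eq_add_neg]; exact congZero_add hx (congZero_neg hy)

lemma congZero_away_mul {x y : ℚ} (hy : IsAway q y) (hx : IsCongZero q M x) :
    IsCongZero q M (y * x) := by
  obtain ⟨r, hr, rfl⟩ := hx
  exact ⟨y * r, hy.mul hr, by ring⟩

/-! ### multiples of a unit exhaust `ℤ[1/q] / M` -/

/-- every element of `ℤ[1/q]` is congruent to an integer modulo `M ℤ[1/q]` (`gcd(q, M) = 1`). -/
theorem exists_int_cong (hqM : Nat.Coprime q M) {t : ℚ} (ht : IsAway q t) :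
    ∃ z : ℤ, IsCongZero q M (t - z) := by
  have ht' := ht
  obtain ⟨k, m, hm⟩ := ht
  have hcop : IsCoprime ((q : ℤ) ^ k) (M : ℤ) :=
    (Nat.isCoprime_iff_coprime.mpr hqM).pow_left
  obtain ⟨u, v, huv⟩ := hcop
  -- u * q^k + v * M = 1
  have huv' : (u : ℚ) * (q : ℚ) ^ k + v * M = 1 := by exact_mod_cast huv
  refine ⟨m * u, ⟨t * v, ht'.mul (IsAway.of_int v), ?_⟩⟩
  push_cast
  rw [← hm]
  linear_combination (-t) * huv'

/-- if `s₂` is prime to `M` and `a ≡ 1 (mod M)`, the multiples `i * s₂ * a`, `i : ℕ`, exhaust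
`ℤ[1/q]` modulo `M ℤ[1/q]`. -/
theorem exists_nat_mul_cong (hM : M ≠ 0) (hqM : Nat.Coprime q M) {s₂ : ℕ} (hs : Nat.Coprime s₂ M)
    {a : ℚ} (ha : IsCongZero q M (a - 1)) {t : ℚ} (ht : IsAway q t) :
    ∃ i : ℕ, IsCongZero q M (t - i * s₂ * a) := by
  obtain ⟨z, hz⟩ := exists_int_cong (M := M) hqM ht
  -- `i * s₂ ≡ z (mod M)`
  have : NeZero M := ⟨hM⟩
  have hunit : IsUnit ((s₂ : ℕ) : ZMod M) := (ZMod.isUnit_iff_coprime s₂ M).mpr hs
  obtain ⟨w, hw⟩ := hunit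
  set i : ℕ := (((z : ZMod M) * (↑(w⁻¹) : ZMod M)).val) with hi
  have hiz : (((i : ℤ) * (s₂ : ℤ) - z : ℤ) : ZMod M) = 0 := by
    push_cast
    rw [hi, ZMod.natCast_val, ZMod.cast_id', id, ← hw, mul_assoc, Units.inv_mul, mul_one, sub_self]
  have hdvd : (M : ℤ) ∣ (i : ℤ) * (s₂ : ℤ) - z := (ZMod.intCast_zmod_eq_zero_iff_dvd _ _).mp hiz
  have h1 : IsCongZero q M (((i : ℤ) * (s₂ : ℤ) - z : ℤ) : ℚ) := isCongZero_of_int_dvd q M _ hdvd
  refine ⟨i, ?_⟩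
  -- t - i s₂ a = (t - z) - (i s₂ - z) - i s₂ (a - 1)
  have h2 : IsCongZero q M ((i : ℚ) * s₂ * (a - 1)) :=
    congZero_away_mul ((away_natCast i).mul (away_natCast s₂)) ha
  have h3 := congZero_sub (congZero_sub hz h1) h2
  have : t - (i : ℚ) * s₂ * a =
      t - (z : ℚ) - (((i : ℤ) * (s₂ : ℤ) - z : ℤ) : ℚ) - (i : ℚ) * s₂ * (a - 1) := by
    push_cast; ring
  rw [this]; exact h3

/-! ### the input of STEP A -/

/-- a prime dividing a power of `q` and a number prime to `q` is impossible. -/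
private lemma false_of_prime_dvd {ℓ a0 e : ℕ} (hℓ : ℓ.Prime) (h1 : ℓ ∣ a0) (h2 : ℓ ∣ q ^ e)
    (hc : Nat.Coprime a0 q) : False := by
  have h3 : ℓ ∣ q := hℓ.dvd_of_dvd_pow h2
  have : ℓ ∣ 1 := by
    have := Nat.dvd_gcd h1 h3
    rwa [hc] at this
  exact hℓ.one_lt.ne' (Nat.dvd_one.mp this)

/-- if `0 ≡ 1 (mod M ℤ[1/q])` with `gcd(M, q) = 1` then `M = 1`. -/
private lemma eq_one_of_congZero_neg_one (hMq : Nat.Coprime M q)
    (h : IsCongZero q M ((0 : ℚ) - 1)) : M = 1 := by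
  obtain ⟨r, ⟨n, m, hm⟩, hr⟩ := h
  -- `-(q^n) = M * m`
  have hE : -((q : ℤ) ^ n) = (M : ℤ) * m := by
    have : ((-((q : ℤ) ^ n) : ℤ) : ℚ) = (((M : ℤ) * m : ℤ) : ℚ) := by
      push_cast
      rw [← hm]
      linear_combination ((q : ℚ) ^ n) * hr
    exact_mod_cast this
  have hdvd : (M : ℤ) ∣ (q : ℤ) ^ n := by
    have : (M : ℤ) ∣ -((q : ℤ) ^ n) := ⟨m, hE⟩
    exact (Int.dvd_neg).mp this
  have hdvd' : M ∣ q ^ n := by exact_mod_cast hdvd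
  have hcop : Nat.Coprime M (q ^ n) := Nat.Coprime.pow_right n hMq
  exact Nat.Coprime.eq_one_of_dvd hcop hdvd'

/-- **F2**: the number-theoretic input of STEP A. -/
theorem ntInput (q M : ℕ) (hq : q.Prime) (hM : 0 < M) (hMq : M.Coprime q) : CSP11.NTInput q M := by
  intro a c₁ ha hc1 ha1 hbez
  have hq0 : q ≠ 0 := hq.ne_zero
  have hqQ : (q : ℚ) ≠ 0 := by exact_mod_cast hq0
  have hM0 : M ≠ 0 := hM.ne'
  have hqM : Nat.Coprime q M := hMq.symm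
  by_cases ha0 : a = 0
  · -- then `M = 1` and everything is trivial
    subst ha0
    have hM1 : M = 1 := eq_one_of_congZero_neg_one hMq ha1
    subst hM1
    refine ⟨0, 1, 0, IsAway.zero, one_ne_zero, IsAway.one, by simpa using IsAway.one,
      ⟨0, IsAway.zero, by simp⟩, IsAway.zero, by simp, ?_⟩
    intro t ht
    exact ⟨0, ⟨t, ht, by simp⟩⟩
  obtain ⟨x, y, hx, hy, hxy⟩ := hbez
  obtain ⟨L, hML, hLp, haux⟩ := exists_aux_prime hM0 hq hqM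
  obtain ⟨L1, rfl⟩ := hML
  obtain ⟨r, hr, har⟩ := ha1
  -- common exponent
  obtain ⟨n1, h1⟩ := away_mul_pow_int ha
  obtain ⟨n2, h2⟩ := away_mul_pow_int hc1
  obtain ⟨n3, h3⟩ := away_mul_pow_int hx
  obtain ⟨n4, h4⟩ := away_mul_pow_int hy
  obtain ⟨n5, h5⟩ := away_mul_pow_int hr
  set e : ℕ := n1 + n2 + n3 + n4 + n5 with he
  obtain ⟨ma, hma⟩ := h1 e (by omega)
  obtain ⟨mc1, hmc1⟩ := h2 e (by omega)
  obtain ⟨mx, hmx⟩ := h3 e (by omega)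
  obtain ⟨my, hmy⟩ := h4 e (by omega)
  obtain ⟨mr, hmr⟩ := h5 e (by omega)
  have hqe : ((q : ℚ) ^ e) ≠ 0 := pow_ne_zero _ hqQ
  -- integer equations
  have E1 : mx * ma + my * mc1 = (q : ℤ) ^ (2 * e) := by
    have : ((mx * ma + my * mc1 : ℤ) : ℚ) = (((q : ℤ) ^ (2 * e) : ℤ) : ℚ) := by
      push_cast
      rw [← hma, ← hmc1, ← hmx, ← hmy, two_mul, pow_add]
      linear_combination ((q : ℚ) ^ e * (q : ℚ) ^ e) * hxy
    exact_mod_cast this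
  have E2 : ma - (q : ℤ) ^ e = (M : ℤ) * mr := by
    have : ((ma - (q : ℤ) ^ e : ℤ) : ℚ) = (((M : ℤ) * mr : ℤ) : ℚ) := by
      push_cast
      rw [← hma, ← hmr]
      linear_combination ((q : ℚ) ^ e) * har
    exact_mod_cast this
  have hma0 : ma ≠ 0 := by
    intro h
    rw [h] at hma
    have : a * (q : ℚ) ^ e = 0 := by rw [hma]; simp
    rcases mul_eq_zero.mp this with h' | h'
    · exact ha0 h'
    · exact hqe h'
  -- prime-to-q part of `ma`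
  obtain ⟨Q, a0, hQa0, hQp, ha0q⟩ :=
    exists_primary_decomp q ma.natAbs (Int.natAbs_pos.mpr hma0)
  have hQ0 : Q ≠ 0 := by
    rintro rfl
    rw [zero_mul] at hQa0
    exact hma0 (Int.natAbs_eq_zero.mp hQa0)
  have ha00 : a0 ≠ 0 := by
    rintro rfl
    rw [mul_zero] at hQa0
    exact hma0 (Int.natAbs_eq_zero.mp hQa0)
  have hQpow : Q = q ^ Q.primeFactorsList.length :=
    Nat.eq_prime_pow_of_unique_prime_dvd hQ0 fun {d} hd hdQ =>
      (Nat.prime_dvd_prime_iff_eq hd hq).mp (hQp d hd hdQ)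
  set kk : ℕ := Q.primeFactorsList.length with hkk
  have ha0ma : (a0 : ℤ) ∣ ma := by
    have : (a0 : ℤ) ∣ (ma.natAbs : ℤ) := by
      rw [hQa0]; push_cast; exact Dvd.intro_left _ rfl
    exact Int.dvd_natAbs.mp this
  -- coprimality facts
  have hcopM : Nat.Coprime a0 M := by
    refine Nat.coprime_of_dvd fun ℓ hℓ hl1 hl2 => ?_
    have hlma : (ℓ : ℤ) ∣ ma := (Int.natCast_dvd_natCast.mpr hl1).trans ha0ma
    have hlM : (ℓ : ℤ) ∣ (M : ℤ) * mr := Dvd.dvd.mul_right (Int.natCast_dvd_natCast.mpr hl2) mr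
    have hlq : (ℓ : ℤ) ∣ (q : ℤ) ^ e := by
      have : (q : ℤ) ^ e = ma - (M : ℤ) * mr := by linarith
      rw [this]; exact dvd_sub hlma hlM
    have hlq' : ℓ ∣ q ^ e := by exact_mod_cast hlq
    exact false_of_prime_dvd hℓ hl1 hlq' ha0q
  have hcopside : Nat.Coprime a0 (sideMod M) := by
    unfold sideMod
    split_ifs with h2M
    · have h2 : Nat.Coprime a0 2 := Nat.Coprime.coprime_dvd_right h2M hcopM
      have h4 : Nat.Coprime a0 4 := by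
        have := Nat.Coprime.mul_right h2 h2
        simpa using this
      exact Nat.Coprime.mul_right h4 hcopM
    · exact hcopM
  have hcopc1 : IsCoprime ((a0 : ℕ) : ℤ) mc1 := by
    rw [Int.isCoprime_iff_gcd_eq_one]
    by_contra hne
    obtain ⟨ℓ, hℓ, hdvd⟩ := Nat.exists_prime_and_dvd hne
    have hl1 : ℓ ∣ a0 := by
      have := (Nat.dvd_gcd_iff.mp (by simpa [Int.gcd] using hdvd)).1
      simpa using this
    have hl2 : (ℓ : ℤ) ∣ mc1 := by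
      have := (Nat.dvd_gcd_iff.mp (by simpa [Int.gcd] using hdvd)).2
      exact Int.natCast_dvd.mpr this
    have hlma : (ℓ : ℤ) ∣ ma := (Int.natCast_dvd_natCast.mpr hl1).trans ha0ma
    have hlq : (ℓ : ℤ) ∣ (q : ℤ) ^ (2 * e) := by
      rw [← E1]
      exact dvd_add (Dvd.dvd.mul_left hlma mx) (Dvd.dvd.mul_left hl2 my)
    have hlq' : ℓ ∣ q ^ (2 * e) := by exact_mod_cast hlq
    exact false_of_prime_dvd hℓ hl1 hlq' ha0q
  have hcopL1 : Nat.Coprime (L1 * q ^ e) a0 := by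
    refine Nat.Coprime.mul_left ?_ (Nat.Coprime.pow_left e ha0q.symm)
    refine Nat.coprime_of_dvd fun ℓ hℓ hl1 hl2 => ?_
    have hlM : ℓ ∣ M := hLp ℓ hℓ (Dvd.dvd.mul_left hl1 M)
    have : ℓ ∣ 1 := by
      have := Nat.dvd_gcd hl2 hlM
      rwa [hcopM] at this
    exact hℓ.one_lt.ne' (Nat.dvd_one.mp this)
  -- the class κ
  have : NeZero a0 := ⟨ha00⟩
  have hU : IsUnit (((L1 * q ^ e : ℕ)) : ZMod a0) := (ZMod.isUnit_iff_coprime _ _).mpr hcopL1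
  have hV : IsUnit ((mc1 : ℤ) : ZMod a0) := (ZMod.coe_int_isUnit_iff_isCoprime _ _).mpr hcopc1
  obtain ⟨U, hUe⟩ := hU
  obtain ⟨V, hVe⟩ := hV
  set κ : ℕ := ((↑(V * U⁻¹) : ZMod a0)).val with hκ
  have hκcast : ((κ : ℕ) : ZMod a0) = ↑(V * U⁻¹) := by
    rw [hκ, ZMod.natCast_val, ZMod.cast_id', id]
  have hκcop : Nat.Coprime κ a0 := by
    rw [← ZMod.isUnit_iff_coprime, hκcast]
    exact Units.isUnit _
  obtain ⟨c₀, -, -, hcκ, -, -, n, w, hn1, hn2, hw⟩ :=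
    haux a0 κ 0 ha00 hcopside hκcop
  -- divisibility `a0 ∣ c₀ L1 q^e - mc1`
  have hz : (a0 : ℤ) ∣ (c₀ : ℤ) * ((L1 * q ^ e : ℕ) : ℤ) - mc1 := by
    rw [← ZMod.intCast_zmod_eq_zero_iff_dvd]
    have h1 : ((c₀ : ℕ) : ZMod a0) = ((κ : ℕ) : ZMod a0) :=
      (ZMod.natCast_eq_natCast_iff _ _ _).mpr hcκ
    push_cast
    have h2 : ((L1 : ZMod a0) * (q : ZMod a0) ^ e) = ↑U := by
      rw [hUe]; push_cast; rfl
    rw [h1, hκcast, h2, ← hVe]
    push_cast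
    rw [mul_assoc, Units.inv_mul, mul_one, sub_self]
  obtain ⟨z, hz⟩ := hz
  -- the sign of `ma`
  obtain ⟨σ, hσ, hmaσ⟩ : ∃ σ : ℤ, (σ = 1 ∨ σ = -1) ∧ ma = σ * ((Q * a0 : ℕ) : ℤ) := by
    rcases Int.natAbs_eq ma with h | h
    · exact ⟨1, Or.inl rfl, by rw [one_mul, ← hQa0]; exact h⟩
    · exact ⟨-1, Or.inr rfl, by rw [neg_one_mul, ← hQa0]; exact h⟩
  have hσ2 : (σ : ℚ) * σ = 1 := by
    rcases hσ with rfl | rfl <;> norm_num
  have hQQ : (Q : ℚ) = (q : ℚ) ^ kk := by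
    exact_mod_cast hQpow
  have hQne : (Q : ℚ) ≠ 0 := by exact_mod_cast hQ0
  have ha0ne : (a0 : ℚ) ≠ 0 := by exact_mod_cast ha00
  have hηne : ((q : ℚ) ^ n) ≠ 0 := pow_ne_zero _ hqQ
  -- the key identity `c₁ + s a = L1 c₀`
  have hkey : c₁ + ((σ : ℚ) * z * ((q : ℚ) ^ kk)⁻¹) * a = (L1 : ℚ) * c₀ := by
    have haq : a = (σ : ℚ) * ((Q : ℚ) * a0) / (q : ℚ) ^ e := by
      rw [eq_div_iff hqe, hma, hmaσ]; push_cast; ring
    have hc1q : c₁ = (mc1 : ℚ) / (q : ℚ) ^ e := by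
      rw [eq_div_iff hqe, hmc1]
    have hzQ : (c₀ : ℚ) * ((L1 : ℚ) * (q : ℚ) ^ e) - mc1 = a0 * z := by
      have := congrArg (fun t : ℤ => (t : ℚ)) hz
      simpa using this
    rw [haq, hc1q, ← hQQ]
    have : (mc1 : ℚ) / (q : ℚ) ^ e + (σ : ℚ) * z * (Q : ℚ)⁻¹ * ((σ : ℚ) * ((Q : ℚ) * a0) / (q : ℚ) ^ e)
        = ((mc1 : ℚ) + (σ * σ) * ((a0 : ℚ) * z)) / (q : ℚ) ^ e := by
      field_simp
    rw [this, hσ2, one_mul, ← hzQ]
    field_simp
    ring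
  refine ⟨(σ : ℚ) * z * ((q : ℚ) ^ kk)⁻¹, (q : ℚ) ^ n, (w : ℚ), ?_, hηne, away_qpow n,
    away_inv_qpow hq0 n, ?_, away_natCast w, ?_, ?_⟩
  · exact ((IsAway.of_int σ).mul (IsAway.of_int z)).mul (away_inv_qpow hq0 kk)
  · have hdvd : ((M : ℕ) : ℤ) ∣ ((q : ℤ) ^ n - 1) := by
      have := (Nat.modEq_iff_dvd.mp hn1.symm)
      simpa using this
    have h := isCongZero_of_int_dvd q M _ hdvd
    have h' : IsCongZero q M ((q : ℚ) ^ n - 1) := by simpa using h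
    exact h'
  · rw [hkey]
    have h := congrArg (fun t : ℕ => (t : ℚ)) hn2
    push_cast at h
    rw [h]; ring
  · intro t ht
    obtain ⟨i, hi⟩ := exists_nat_mul_cong hM0 hqM hw (a := a) ⟨r, hr, har⟩ ht
    refine ⟨i, ?_⟩
    have : t - (i : ℚ) * ((w : ℚ) * a) = t - (i : ℚ) * w * a := by ring
    rw [this]
    have hi' : IsCongZero q M (t - (i : ℚ) * w * a) := hi
    exact hi'

end Fermat.Agent.S41.CSPNum87
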